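/-
RIBET / WALL-p, leaf W-NC (norm contraction), helper400 — part 1: pure matrix algebra.

`det_one_add_smul_add_pow_smul_sub_mem` : for square matrices `Y`, `X` over a commutative ring,
`a` a scalar, `1 ≤ n` and `tr X ∈ (a)`:
  `det (1 + a • Y + a ^ n • X) - det (1 + a • Y) ∈ (a ^ (n + 1))`.
`mem_span_pow_of_mul_one_add_mem` : `z * (1 + a * r) ∈ (a ^ m) → z ∈ (a ^ m)`.
Mathlib only.
-/
import Mathlib

set_option autoImplicit false

namespace Fermat.Agent.Ribet.H400

open Matrix

variable {B : Type*} [CommRing B] {m : Type*} [Fintype m] [DecidableEq m]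

/-- Entrywise congruent matrices have congruent determinants. -/
theorem det_sub_det_mem_of_entries (I : Ideal B) (M M' : Matrix m m B)
    (h : ∀ i j, M i j - M' i j ∈ I) : M.det - M'.det ∈ I := by
  rw [← Ideal.Quotient.eq, RingHom.map_det, RingHom.map_det]
  congr 1
  ext i j
  simp only [RingHom.mapMatrix_apply, Matrix.map_apply]
  exact Ideal.Quotient.eq.mpr (h i j)

/-- `det (1 + c • X) - 1 ∈ (c * t, c ^ 2)`-type statement: if `c * tr X ∈ I` and `c ^ 2 ∈ I`
then `det (1 + c • X) - 1 ∈ I`. -/
theorem det_one_add_smul_sub_one_mem (I : Ideal B) (c : B) (X : Matrix m m B)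
    (h1 : X.trace * c ∈ I) (h2 : c ^ 2 ∈ I) : (1 + c • X).det - 1 ∈ I := by
  rw [Matrix.det_one_add_smul c X]
  have : (1 + X.trace * c +
      Polynomial.eval c ((1 + (Polynomial.X : Polynomial B) •
        X.map Polynomial.C).det.divX.divX) * c ^ 2) - 1
      = X.trace * c + Polynomial.eval c ((1 + (Polynomial.X : Polynomial B) •
        X.map Polynomial.C).det.divX.divX) * c ^ 2 := by ring
  rw [this]
  exact I.add_mem h1 (I.mul_mem_left _ h2)

/-- **Matrix form of the norm contraction.** -/
theorem det_one_add_smul_add_pow_smul_sub_mem (a : B) (n : ℕ) (hn : 1 ≤ n)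
    (Y X : Matrix m m B) (htr : X.trace ∈ Ideal.span {a}) :
    (1 + a • Y + a ^ n • X).det - (1 + a • Y).det ∈ Ideal.span {a ^ (n + 1)} := by
  set I : Ideal B := Ideal.span {a ^ (n + 1)} with hI
  have hmem : a ^ (n + 1) ∈ I := Ideal.subset_span rfl
  -- `(1 + aY)(1 + a^n X) = 1 + aY + a^n X + a^(n+1) Y X`
  have hprod : (1 + a • Y) * (1 + a ^ n • X) = (1 + a • Y + a ^ n • X) + a ^ (n + 1) • (Y * X) := by
    rw [mul_add, mul_one, add_mul, one_mul, Matrix.smul_mul, Matrix.mul_smul, smul_smul,
      ← pow_succ']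
    abel
  have h1 : (1 + a • Y + a ^ n • X).det - ((1 + a • Y) * (1 + a ^ n • X)).det ∈ I := by
    apply det_sub_det_mem_of_entries
    intro i j
    rw [hprod]
    simp only [Matrix.add_apply, Matrix.smul_apply, smul_eq_mul, sub_add_cancel_left]
    exact I.neg_mem (I.mul_mem_right _ hmem)
  have h2 : (1 + a ^ n • X).det - 1 ∈ I := by
    apply det_one_add_smul_sub_one_mem
    · obtain ⟨t, ht⟩ := Ideal.mem_span_singleton'.mp htr
      rw [← ht]
      have : t * a * a ^ n = t * a ^ (n + 1) := by ring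
      rw [this]
      exact I.mul_mem_left _ hmem
    · have : (a ^ n) ^ 2 = a ^ (n - 1) * a ^ (n + 1) := by
        rw [← pow_mul, ← pow_add]
        congr 1
        omega
      rw [this]
      exact I.mul_mem_left _ hmem
  have h3 : ((1 + a • Y) * (1 + a ^ n • X)).det - (1 + a • Y).det ∈ I := by
    rw [Matrix.det_mul]
    have : (1 + a • Y).det * (1 + a ^ n • X).det - (1 + a • Y).det
        = (1 + a • Y).det * ((1 + a ^ n • X).det - 1) := by ring
    rw [this]
    exact I.mul_mem_left _ h2
  have := I.add_mem h1 h3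
  rwa [sub_add_sub_cancel] at this

/-- `det (1 + a • Y) = 1 + a * r`. -/
theorem exists_det_one_add_smul (a : B) (Y : Matrix m m B) :
    ∃ r : B, (1 + a • Y).det = 1 + a * r := by
  refine ⟨Y.trace + Polynomial.eval a ((1 + (Polynomial.X : Polynomial B) •
        Y.map Polynomial.C).det.divX.divX) * a, ?_⟩
  rw [Matrix.det_one_add_smul a Y]
  ring

/-- Units modulo `a` can be cancelled modulo `a ^ k`. -/
theorem mem_span_pow_of_mul_one_add_mem (a r z : B) (k : ℕ)
    (h : z * (1 + a * r) ∈ Ideal.span {a ^ k}) : z ∈ Ideal.span {a ^ k} := by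
  have key : ∀ j : ℕ, j ≤ k → z ∈ Ideal.span {a ^ j} := by
    intro j
    induction j with
    | zero =>
      intro _
      rw [pow_zero, Ideal.span_singleton_one]
      exact Submodule.mem_top
    | succ j ih =>
      intro hj
      have hz : z ∈ Ideal.span {a ^ j} := ih (by omega)
      obtain ⟨t, ht⟩ := Ideal.mem_span_singleton'.mp hz
      obtain ⟨t', ht'⟩ := Ideal.mem_span_singleton'.mp h
      rw [Ideal.mem_span_singleton']
      refine ⟨t' * a ^ (k - (j + 1)) - t * r, ?_⟩
      have hk : a ^ k = a ^ (k - (j + 1)) * a ^ (j + 1) := by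
        rw [← pow_add]
        congr 1
        omega
      have e1 : z = t' * a ^ k - a * r * (t * a ^ j) := by
        rw [ht', ht]
        ring
      rw [e1, hk]
      ring
  exact key k le_rfl

end Fermat.Agent.Ribet.H400
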