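/-
RIBET / WALL-p, leaf W-NC (norm contraction), helper400 — part 2: the contraction for the local
norm `D = det ∘ secMat p : R((T)) → R((q))` (`q = T ^ p`; norm of `R((T)) / R((q))`).

`locNorm_contract` : `R` any commutative ring, `(p : R) = w * e`, `1 ≤ n`, `U₂ * T = 1 + w * Y`
(`U₂` is a unit modulo `w`)  ⟹  `D (U₂ + w ^ n * U₁) - D U₂ ∈ (w ^ (n + 1))`.
No roots of unity, no completeness, no domain hypothesis.
-/
import Fermat.Agent.S37.H400.KronSection
import Fermat.Agent.Ribet.H400.NCMat

set_option autoImplicit false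

noncomputable section

namespace Fermat.Agent.Ribet.H400

open HahnSeries Matrix ModularCurve
open Fermat.Agent.S37.H400

variable {R : Type*} [CommRing R]

/-- The local norm `D f = det (secMat p f)`. -/
def locNorm (p : ℕ) [NeZero p] (f : LaurentSeries R) : LaurentSeries R := (secMat p f).det

theorem locNorm_mul (p : ℕ) [NeZero p] (f g : LaurentSeries R) :
    locNorm p (f * g) = locNorm p f * locNorm p g := by
  rw [locNorm, secMat_mul, Matrix.det_mul]
  rfl

theorem locNorm_one (p : ℕ) [NeZero p] : locNorm p (1 : LaurentSeries R) = 1 := by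
  rw [locNorm, secMat_one, Matrix.det_one]

theorem locNorm_pow (p : ℕ) [NeZero p] (f : LaurentSeries R) (n : ℕ) :
    locNorm p (f ^ n) = locNorm p f ^ n := by
  rw [locNorm, secMat_pow, Matrix.det_pow]
  rfl

theorem locNorm_coeffMap {S : Type*} [CommRing S] (φ : R →+* S) (p : ℕ) [NeZero p]
    (f : LaurentSeries R) : locNorm p (coeffMap φ f) = coeffMap φ (locNorm p f) := by
  rw [locNorm, secMat_coeffMap, locNorm, RingHom.map_det]
  rfl

theorem secL_C_mul (p : ℕ) [NeZero p] (r : ℤ) (c : R) (f : LaurentSeries R) :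
    secL p r (HahnSeries.C c * f) = HahnSeries.C c * secL p r f := by
  ext k
  rw [secL_coeff, HahnSeries.C_mul_eq_smul, HahnSeries.C_mul_eq_smul, HahnSeries.coeff_smul,
    HahnSeries.coeff_smul, secL_coeff]

theorem secMat_add (p : ℕ) [NeZero p] (f g : LaurentSeries R) :
    secMat p (f + g) = secMat p f + secMat p g := by
  ext i' i : 1
  rw [Matrix.add_apply, secMat_apply', secMat_apply', secMat_apply', secL_add]

theorem secMat_C_mul (p : ℕ) [NeZero p] (c : R) (f : LaurentSeries R) :
    secMat p (HahnSeries.C c * f) = (HahnSeries.C c : LaurentSeries R) • secMat p f := by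
  ext i' i : 1
  rw [Matrix.smul_apply, secMat_apply', secMat_apply', secL_C_mul, smul_eq_mul]

theorem secMat_C_pow_mul (p : ℕ) [NeZero p] (c : R) (n : ℕ) (f : LaurentSeries R) :
    secMat p (HahnSeries.C c ^ n * f) = (HahnSeries.C c : LaurentSeries R) ^ n • secMat p f := by
  rw [← map_pow, secMat_C_mul, map_pow]

/-- The trace of the section matrix is `p` times the `0`-th section. -/
theorem trace_secMat (p : ℕ) [NeZero p] (f : LaurentSeries R) :
    (secMat p f).trace = (p : LaurentSeries R) * secL p 0 f := by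
  rw [Matrix.trace]
  simp only [Matrix.diag_apply, secMat_apply', sub_self]
  rw [Finset.sum_const, Finset.card_univ, Fintype.card_fin, nsmul_eq_mul]

theorem natCast_laurent (n : ℕ) : ((n : ℕ) : LaurentSeries R) = HahnSeries.C (n : R) := by
  rw [map_natCast]

/-- The locNorm of a constant. -/
theorem locNorm_C (p : ℕ) [NeZero p] (c : R) :
    locNorm p (HahnSeries.C c : LaurentSeries R) = HahnSeries.C c ^ p := by
  have h : secMat p (HahnSeries.C c : LaurentSeries R)
      = (HahnSeries.C c : LaurentSeries R) • (1 : Matrix (Fin p) (Fin p) (LaurentSeries R)) := by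
    rw [← secMat_one, ← secMat_C_mul, mul_one]
  rw [locNorm, h, Matrix.det_smul, Matrix.det_one, mul_one, Fintype.card_fin]

/-- `D (1 + w * Y) = 1 + w * r`. -/
theorem exists_locNorm_one_add (p : ℕ) [NeZero p] (w : R) (Y : LaurentSeries R) :
    ∃ r : LaurentSeries R, locNorm p (1 + HahnSeries.C w * Y) = 1 + HahnSeries.C w * r := by
  rw [locNorm, secMat_add, secMat_one, secMat_C_mul]
  exact exists_det_one_add_smul _ _

/-- **Norm contraction.**  If `U₂` is invertible modulo `w`, `p ∈ (w)` and `n ≥ 1`, then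
`D (U₂ + w ^ n * U₁) ≡ D U₂` modulo `w ^ (n + 1)`. -/
theorem locNorm_contract (p : ℕ) [NeZero p] (w e : R) (hp : (p : R) = w * e) (n : ℕ)
    (hn : 1 ≤ n) (U₂ T Y U₁ : LaurentSeries R) (hT : U₂ * T = 1 + HahnSeries.C w * Y) :
    locNorm p (U₂ + HahnSeries.C w ^ n * U₁) - locNorm p U₂
      ∈ Ideal.span {(HahnSeries.C w : LaurentSeries R) ^ (n + 1)} := by
  set a : LaurentSeries R := HahnSeries.C w with ha
  -- multiply by `T`
  have h3 : (U₂ + a ^ n * U₁) * T = 1 + a * Y + a ^ n * (U₁ * T) := by
    rw [add_mul, hT]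
    ring
  have htr : (secMat p (U₁ * T)).trace ∈ Ideal.span {a} := by
    rw [trace_secMat, natCast_laurent, hp, map_mul]
    exact Ideal.mem_span_singleton'.mpr ⟨HahnSeries.C e * secL p 0 (U₁ * T), by rw [ha]; ring⟩
  have hM := det_one_add_smul_add_pow_smul_sub_mem a n hn (secMat p Y) (secMat p (U₁ * T)) htr
  have e1 : locNorm p ((U₂ + a ^ n * U₁) * T)
      = (1 + a • secMat p Y + a ^ n • secMat p (U₁ * T)).det := by
    rw [h3, locNorm, secMat_add, secMat_add, secMat_one, ha, secMat_C_mul, secMat_C_pow_mul]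
  have e2 : locNorm p (U₂ * T) = (1 + a • secMat p Y).det := by
    rw [hT, locNorm, secMat_add, secMat_one, ha, secMat_C_mul]
  rw [← e1, ← e2, locNorm_mul, locNorm_mul, ← sub_mul] at hM
  -- multiply by `D U₂` and cancel `D (U₂ T) = 1 + a r`
  obtain ⟨r, hr⟩ := exists_locNorm_one_add p w Y
  have h4 : (locNorm p (U₂ + a ^ n * U₁) - locNorm p U₂) * (1 + a * r)
      ∈ Ideal.span {a ^ (n + 1)} := by
    have : (locNorm p (U₂ + a ^ n * U₁) - locNorm p U₂) * (1 + a * r)
        = (locNorm p (U₂ + a ^ n * U₁) - locNorm p U₂) * locNorm p T * locNorm p U₂ := by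
      rw [← hr, ← hT, locNorm_mul]
      ring
    rw [this]
    exact Ideal.mul_mem_right _ _ hM
  exact mem_span_pow_of_mul_one_add_mem a r _ (n + 1) h4

end Fermat.Agent.Ribet.H400
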