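/-
RIBET / WALL-p, leaf W-NC (norm contraction), helper400 — part 3: the abstract induction.

Abstract setting (`NCData`): a field `𝔽` (= `F_N`, `N = p M'`) with
* `ι : 𝔽 → K((q))` (the `q`-expansion at `∞`),
* an involution `s` of `𝔽` (the swap `w_p`; `ι ∘ s` is the expansion at the other component),
* a multiplicative `Nm : 𝔽 → 𝔽` (`= α ∘ N_α`, the norm of `F_N / α F_M`) with the NORM-ID
  `ι (Nm x) = ι x * D (ι (s x))`, `D = locNorm p` (the local norm at the second component),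
* a subring `R ⊆ K`, `w ∈ R` with `p ∈ (w)`.
`Dep n x` : `x ∈ 1 + w ^ n V∞` (`V∞` the Gauss valuation ring: quotients `U₁ / U₂` of `R`-integral
series with `U₂ ∈ ι 𝔽` invertible modulo `w`).

`nc_step` : `Nm f = c_α G ^ p`, `f = c g ^ p u` with `s u ∈ 1 + w ^ n V∞` (depth `n` at `V₀`)
   ⟹ `f = c_α g' ^ p u'` with `u' ∈ 1 + w ^ (n + 1) V∞` (depth `n + 1` at `V∞`).
`nc_main` : depth `1` at both valuations + both norms `p`-th powers ⟹ depth `n` for every `n`.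
-/
import Fermat.Agent.Ribet.H400.NCSeries

set_option autoImplicit false

noncomputable section

namespace Fermat.Agent.Ribet.H400

open HahnSeries Matrix ModularCurve
open Fermat.Agent.S37.H400

/-- The abstract norm-contraction datum. -/
structure NCData (p : ℕ) [NeZero p] (R K 𝔽 : Type*) [CommRing R] [Field K] [Algebra R K]
    [Field 𝔽] [Algebra K 𝔽] where
  /-- the uniformiser -/
  w : R
  /-- `p = w * e` -/
  e : R
  hp : (p : R) = w * e
  /-- the expansion at `∞` -/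
  ι : 𝔽 →+* LaurentSeries K
  ι_C : ∀ c : K, ι (algebraMap K 𝔽 c) = HahnSeries.C c
  /-- the swap involution -/
  s : 𝔽 →+* 𝔽
  s_s : ∀ x, s (s x) = x
  s_C : ∀ c : K, s (algebraMap K 𝔽 c) = algebraMap K 𝔽 c
  /-- the norm (composed with the inclusion) -/
  Nm : 𝔽 →* 𝔽
  normId : ∀ x, ι (Nm x) = ι x * locNorm p (ι (s x))

namespace NCData

variable {p : ℕ} [NeZero p] {R K 𝔽 : Type*} [CommRing R] [Field K] [Algebra R K]
  [Field 𝔽] [Algebra K 𝔽] (D : NCData p R K 𝔽)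

/-- coefficientwise inclusion `R((q)) → K((q))` -/
abbrev incl (_D : NCData p R K 𝔽) : LaurentSeries R →+* LaurentSeries K :=
  coeffMap (algebraMap R K)

/-- `x ∈ 1 + w ^ n V∞`. -/
def Dep (n : ℕ) (x : 𝔽) : Prop :=
  ∃ U₁ U₂ T Y : LaurentSeries R, U₂ * T = 1 + HahnSeries.C D.w * Y ∧
    D.incl U₂ ∈ Set.range D.ι ∧
    (D.ι x - 1) * D.incl U₂ = D.incl (HahnSeries.C D.w ^ n * U₁)

theorem ι_injective : Function.Injective D.ι := D.ι.injective

theorem s_injective : Function.Injective D.s := D.s.injective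

theorem Nm_ne_zero {x : 𝔽} (hx : x ≠ 0) : D.Nm x ≠ 0 := by
  intro h
  have h1 : D.Nm x * D.Nm x⁻¹ = 1 := by
    rw [← map_mul, mul_inv_cancel₀ hx, map_one]
  rw [h, zero_mul] at h1
  exact zero_ne_one h1

theorem locNorm_zero : locNorm p (0 : LaurentSeries K) = 0 := by
  have h : secMat p (0 : LaurentSeries K) = 0 := by
    ext i' i : 1
    rw [secMat_apply', secL_zero]
    rfl
  rw [locNorm, h, Matrix.det_zero]

/-- NORM-ID solved for the local norm. -/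
theorem locNorm_ι_s {x : 𝔽} (hx : x ≠ 0) : locNorm p (D.ι (D.s x)) = D.ι (D.Nm x / x) := by
  have h := D.normId x
  have hx' : D.ι x ≠ 0 := (map_ne_zero D.ι).mpr hx
  rw [map_div₀, h, mul_div_assoc, mul_comm, div_mul_cancel₀ _ hx']

theorem locNorm_ι {x : 𝔽} (hx : x ≠ 0) :
    locNorm p (D.ι x) = D.ι (D.Nm (D.s x) / D.s x) := by
  have h := D.locNorm_ι_s (x := D.s x) ((map_ne_zero D.s).mpr hx)
  rwa [D.s_s] at h

theorem locNorm_ι_mem_range (x : 𝔽) : locNorm p (D.ι x) ∈ Set.range D.ι := by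
  by_cases hx : x = 0
  · refine ⟨0, ?_⟩
    rw [hx, map_zero, locNorm_zero]
  · exact ⟨_, (D.locNorm_ι hx).symm⟩

theorem locNorm_ι_s_ne_zero {x : 𝔽} (hx : x ≠ 0) : locNorm p (D.ι (D.s x)) ≠ 0 := by
  rw [D.locNorm_ι_s hx]
  exact (map_ne_zero D.ι).mpr (div_ne_zero (D.Nm_ne_zero hx) hx)

/-- The norm of a constant. -/
theorem Nm_const (c : K) : D.Nm (algebraMap K 𝔽 c) = algebraMap K 𝔽 c ^ (p + 1) := by
  apply D.ι_injective
  rw [D.normId, D.s_C, D.ι_C, map_pow, D.ι_C, locNorm_C, pow_succ']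

/-- **Key step**: `s u ∈ 1 + w ^ n V∞`, `n ≥ 1` ⟹ `u / Nm u ∈ 1 + w ^ (n + 1) V∞`. -/
theorem dep_succ {n : ℕ} (hn : 1 ≤ n) {u : 𝔽} (hu : u ≠ 0) (h : D.Dep n (D.s u)) :
    D.Dep (n + 1) (u / D.Nm u) := by
  obtain ⟨U₁, U₂, T, Y, hT, ⟨v, hv⟩, heq⟩ := h
  set a : LaurentSeries R := HahnSeries.C D.w with ha
  set U₃ : LaurentSeries R := U₂ + a ^ n * U₁ with hU₃
  -- `ι (s u) * incl U₂ = incl U₃`
  have h3 : D.ι (D.s u) * D.incl U₂ = D.incl U₃ := by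
    rw [hU₃, map_add, ← heq]
    ring
  -- contraction
  have hc := locNorm_contract p D.w D.e D.hp n hn U₂ T Y U₁ hT
  obtain ⟨Z, hZ⟩ := Ideal.mem_span_singleton'.mp hc
  -- `U₃` is a unit modulo `w`
  have hT₃ : U₃ * T = 1 + a * (Y + a ^ (n - 1) * (U₁ * T)) := by
    have hpow : a ^ n = a * a ^ (n - 1) := by
      rw [← pow_succ']
      congr 1
      omega
    rw [hU₃, add_mul, hT, hpow]
    ring
  obtain ⟨r, hr⟩ := exists_locNorm_one_add p D.w (Y + a ^ (n - 1) * (U₁ * T))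
  refine ⟨-Z, locNorm p U₃, locNorm p T, r, ?_, ?_, ?_⟩
  · rw [← locNorm_mul, hT₃, hr]
  · -- membership of the new denominator
    have e1 : D.incl (locNorm p U₃) = locNorm p (D.ι (D.s u)) * locNorm p (D.ι v) := by
      rw [← locNorm_coeffMap, ← h3, locNorm_mul, hv]
    rw [e1]
    obtain ⟨y, hy⟩ := D.locNorm_ι_mem_range v
    exact ⟨D.Nm u / u * y, by rw [map_mul, hy, D.locNorm_ι_s hu]⟩
  · -- the equation
    have hne : locNorm p (D.ι (D.s u)) ≠ 0 := D.locNorm_ι_s_ne_zero hu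
    have hu' : D.ι u ≠ 0 := (map_ne_zero D.ι).mpr hu
    have e1 : D.incl (locNorm p U₃) = locNorm p (D.ι (D.s u)) * D.incl (locNorm p U₂) := by
      rw [← locNorm_coeffMap, ← h3, locNorm_mul, locNorm_coeffMap]
    have e2 : D.ι (u / D.Nm u) * locNorm p (D.ι (D.s u)) = 1 := by
      rw [map_div₀, D.normId, div_mul_eq_mul_div]
      exact div_self (mul_ne_zero hu' hne)
    have e3 : locNorm p U₂ - locNorm p U₃ = HahnSeries.C D.w ^ (n + 1) * -Z := by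
      rw [mul_neg, mul_comm, hZ]
      ring
    calc (D.ι (u / D.Nm u) - 1) * D.incl (locNorm p U₃)
        = D.ι (u / D.Nm u) * locNorm p (D.ι (D.s u)) * D.incl (locNorm p U₂)
            - D.incl (locNorm p U₃) := by
          rw [sub_mul, one_mul, e1, mul_assoc]
      _ = D.incl (locNorm p U₂ - locNorm p U₃) := by
          rw [e2, one_mul, map_sub]
      _ = D.incl (HahnSeries.C D.w ^ (n + 1) * -Z) := by rw [e3]

/-- `f` has depth `n` at `V∞` with constant `c`: `f = c g ^ p u`, `u ∈ 1 + w ^ n V∞`. -/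
def PInf (c : K) (n : ℕ) (f : 𝔽) : Prop :=
  ∃ g u : 𝔽, g ≠ 0 ∧ u ≠ 0 ∧ f = algebraMap K 𝔽 c * g ^ p * u ∧ D.Dep n u

/-- `f` has depth `n` at `V₀ = V∞ ∘ s` with constant `c`: `f = c g ^ p u`, `s u ∈ 1 + w ^ n V∞`. -/
def PZero (c : K) (n : ℕ) (f : 𝔽) : Prop :=
  ∃ g u : 𝔽, g ≠ 0 ∧ u ≠ 0 ∧ f = algebraMap K 𝔽 c * g ^ p * u ∧ D.Dep n (D.s u)

theorem pZero_s_of_pInf {c : K} {n : ℕ} {f : 𝔽} (h : D.PInf c n f) : D.PZero c n (D.s f) := by
  obtain ⟨g, u, hg, hu, hf, hdep⟩ := h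
  refine ⟨D.s g, D.s u, (map_ne_zero D.s).mpr hg, (map_ne_zero D.s).mpr hu, ?_, ?_⟩
  · rw [hf, map_mul, map_mul, map_pow, D.s_C]
  · rwa [D.s_s]

theorem pInf_s_of_pZero {c : K} {n : ℕ} {f : 𝔽} (h : D.PZero c n f) : D.PInf c n (D.s f) := by
  obtain ⟨g, u, hg, hu, hf, hdep⟩ := h
  refine ⟨D.s g, D.s u, (map_ne_zero D.s).mpr hg, (map_ne_zero D.s).mpr hu, ?_, hdep⟩
  rw [hf, map_mul, map_mul, map_pow, D.s_C]

theorem pZero_of_pInf_s {c : K} {n : ℕ} {f : 𝔽} (h : D.PInf c n (D.s f)) : D.PZero c n f := by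
  have := D.pZero_s_of_pInf h
  rwa [D.s_s] at this

theorem pInf_of_pZero_s {c : K} {n : ℕ} {f : 𝔽} (h : D.PZero c n (D.s f)) : D.PInf c n f := by
  have := D.pInf_s_of_pZero h
  rwa [D.s_s] at this

/-- **Norm contraction, one step.**  If `Nm f = c_α G ^ p` and `f` has depth `n ≥ 1` at `V₀`
(any constant), then `f` has depth `n + 1` at `V∞`, with constant `c_α`. -/
theorem nc_step {n : ℕ} (hn : 1 ≤ n) {f G : 𝔽} {cα c : K} (hc : c ≠ 0)
    (hNm : D.Nm f = algebraMap K 𝔽 cα * G ^ p) (h : D.PZero c n f) :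
    D.PInf cα (n + 1) f := by
  obtain ⟨g, u, hg, hu, hf, hdep⟩ := h
  have hc' : algebraMap K 𝔽 c ≠ 0 := (map_ne_zero (algebraMap K 𝔽)).mpr hc
  have hNg : D.Nm g ≠ 0 := D.Nm_ne_zero hg
  have hNu : D.Nm u ≠ 0 := D.Nm_ne_zero hu
  have hf0 : f ≠ 0 := by
    rw [hf]
    exact mul_ne_zero (mul_ne_zero hc' (pow_ne_zero _ hg)) hu
  have hNf : D.Nm f ≠ 0 := D.Nm_ne_zero hf0
  have hG : G ≠ 0 := by
    rintro rfl
    rw [zero_pow (NeZero.ne p), mul_zero] at hNm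
    exact hNf hNm
  have hexp : D.Nm f = algebraMap K 𝔽 c ^ (p + 1) * D.Nm g ^ p * D.Nm u := by
    rw [hf, map_mul, map_mul, map_pow, D.Nm_const]
  refine ⟨G * g / (algebraMap K 𝔽 c * D.Nm g), u / D.Nm u,
    div_ne_zero (mul_ne_zero hG hg) (mul_ne_zero hc' hNg), div_ne_zero hu hNu, ?_,
    D.dep_succ hn hu hdep⟩
  have key : algebraMap K 𝔽 cα * G ^ p
      = algebraMap K 𝔽 c ^ (p + 1) * D.Nm g ^ p * D.Nm u := by rw [← hNm, hexp]
  have e : algebraMap K 𝔽 cα * (G * g / (algebraMap K 𝔽 c * D.Nm g)) ^ p * (u / D.Nm u)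
      = (algebraMap K 𝔽 cα * G ^ p) * g ^ p * u
          / ((algebraMap K 𝔽 c) ^ p * D.Nm g ^ p * D.Nm u) := by
    rw [div_pow, mul_pow, mul_pow]
    field_simp
  rw [e, key, hf]
  field_simp
  ring

/-- **W-NC, abstract form.**  Both norms `p`-th powers (up to constants `c_α`, `c_β`) and depth
`1` at both valuations ⟹ depth `n` at both valuations for every `n ≥ 2`, with the constants
`c_α` (at `V∞`) and `c_β` (at `V₀`). -/
theorem nc_main {f Gα Gβ : 𝔽} {cα cβ c₁ c₂ : K} (hc₁ : c₁ ≠ 0) (hc₂ : c₂ ≠ 0)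
    (hα : D.Nm f = algebraMap K 𝔽 cα * Gα ^ p)
    (hβ : D.Nm (D.s f) = algebraMap K 𝔽 cβ * Gβ ^ p)
    (hInf : D.PInf c₁ 1 f) (hZer : D.PZero c₂ 1 f) (n : ℕ) (hn : 2 ≤ n) :
    D.PInf cα n f ∧ D.PZero cβ n f := by
  have hf0 : f ≠ 0 := by
    obtain ⟨g, u, hg, hu, hf, -⟩ := hInf
    rw [hf]
    exact mul_ne_zero (mul_ne_zero ((map_ne_zero (algebraMap K 𝔽)).mpr hc₁)
      (pow_ne_zero _ hg)) hu
  have hcα : cα ≠ 0 := by
    rintro rfl
    rw [map_zero, zero_mul] at hα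
    exact D.Nm_ne_zero hf0 hα
  have hcβ : cβ ≠ 0 := by
    rintro rfl
    rw [map_zero, zero_mul] at hβ
    exact D.Nm_ne_zero ((map_ne_zero D.s).mpr hf0) hβ
  have step : ∀ m : ℕ, 1 ≤ m → ∀ c c' : K, c ≠ 0 → c' ≠ 0 → D.PInf c m f → D.PZero c' m f →
      D.PInf cα (m + 1) f ∧ D.PZero cβ (m + 1) f := by
    intro m hm c c' hc hc' hI hZ
    refine ⟨D.nc_step hm hc' hα hZ, ?_⟩
    exact D.pZero_of_pInf_s (D.nc_step hm hc hβ (D.pZero_s_of_pInf hI))
  induction n with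
  | zero => omega
  | succ k ih =>
    rcases Nat.lt_or_ge k 2 with hk | hk
    · have hk1 : k = 1 := by omega
      subst hk1
      exact step 1 le_rfl c₁ c₂ hc₁ hc₂ hInf hZer
    · obtain ⟨hI, hZ⟩ := ih hk
      exact step k (by omega) cα cβ hcα hcβ hI hZ

end NCData

end Fermat.Agent.Ribet.H400
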